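import Mathlib

/-!
# FF2 / S32 leaf L4 (AEVAL-END): polynomials in pairwise commuting endomorphisms

`𝒪` a commutative ring, `M` an `𝒪`-module, `τ : ι → Module.End 𝒪 M` pairwise commuting.

* `aevalEnd τ hcomm : MvPolynomial ι 𝒪 →ₐ[𝒪] Module.End 𝒪 M`, `X i ↦ τ i` (through the commutative
  subalgebra `Algebra.adjoin 𝒪 (Set.range τ)`);
* `aevalEnd_X`, `aevalEnd_C`, `aevalEnd_monomial`, `aevalEnd_monomial_add`, `aevalEnd_monomial_single`;
* `aevalEnd_eq_sum` : `aevalEnd τ h = ∑ α ∈ h.support, h.coeff α • aevalEnd τ (monomial α 1)`;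
* `aevalEnd_commute` : the range is commutative; `commute_aevalEnd` : whatever commutes with all
  `τ i` commutes with the range;
* `aevalEnd_baseChange` : for `τ i = (t i).baseChange 𝒪` (`t i : Module.End R X` commuting) and
  `h = MvPolynomial.map (algebraMap R 𝒪) h₀` : `aevalEnd τ h = (aevalEnd t h₀).baseChange 𝒪`;
  `aevalEnd_baseChange_int` : the case `R = ℤ` with `Int.castRingHom 𝒪`;
* `aevalEndQuot` : the induced **injective** algebra hom from `MvPolynomial ι 𝒪 ⧸ ker` (a commutative
  ring acting faithfully on `M`), finite if `M` is.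
-/

set_option autoImplicit false

open MvPolynomial TensorProduct

namespace Fermat.Agent.FF2.S32E

variable {𝒪 : Type*} [CommRing 𝒪] {M : Type*} [AddCommGroup M] [Module 𝒪 M] {ι : Type*}

section Def

theorem range_comm (τ : ι → Module.End 𝒪 M) (hcomm : ∀ i j, Commute (τ i) (τ j)) :
    ∀ a ∈ Set.range τ, ∀ b ∈ Set.range τ, a * b = b * a := by
  rintro _ ⟨i, rfl⟩ _ ⟨j, rfl⟩
  exact hcomm i j

/-- the generators as elements of the commutative subalgebra they generate -/
def genAdjoin (τ : ι → Module.End 𝒪 M) (i : ι) : Algebra.adjoin 𝒪 (Set.range τ) :=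
  ⟨τ i, Algebra.subset_adjoin ⟨i, rfl⟩⟩

open scoped IsMulCommutative in
/-- **Evaluation of polynomials at pairwise commuting endomorphisms.** -/
noncomputable def aevalEnd (τ : ι → Module.End 𝒪 M) (hcomm : ∀ i j, Commute (τ i) (τ j)) :
    MvPolynomial ι 𝒪 →ₐ[𝒪] Module.End 𝒪 M :=
  haveI : IsMulCommutative (Algebra.adjoin 𝒪 (Set.range τ)) :=
    Algebra.isMulCommutative_adjoin 𝒪 (range_comm τ hcomm)
  (Algebra.adjoin 𝒪 (Set.range τ)).val.comp (MvPolynomial.aeval (genAdjoin τ))

variable (τ : ι → Module.End 𝒪 M) (hcomm : ∀ i j, Commute (τ i) (τ j))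

open scoped IsMulCommutative in
@[simp]
theorem aevalEnd_X (i : ι) : aevalEnd τ hcomm (X i) = τ i := by
  haveI : IsMulCommutative (Algebra.adjoin 𝒪 (Set.range τ)) :=
    Algebra.isMulCommutative_adjoin 𝒪 (range_comm τ hcomm)
  show (Algebra.adjoin 𝒪 (Set.range τ)).val (MvPolynomial.aeval (genAdjoin τ) (X i)) = τ i
  rw [MvPolynomial.aeval_X]
  rfl

@[simp]
theorem aevalEnd_C (a : 𝒪) : aevalEnd τ hcomm (C a) = algebraMap 𝒪 (Module.End 𝒪 M) a := by
  rw [← MvPolynomial.algebraMap_eq, AlgHom.commutes]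

theorem aevalEnd_C_apply (a : 𝒪) (m : M) : aevalEnd τ hcomm (C a) m = a • m := by
  rw [aevalEnd_C]
  rfl

/-- the range of `aevalEnd` is commutative -/
theorem aevalEnd_commute (h h' : MvPolynomial ι 𝒪) :
    Commute (aevalEnd τ hcomm h) (aevalEnd τ hcomm h') := by
  show _ * _ = _ * _
  rw [← map_mul, ← map_mul, mul_comm]

/-- whatever commutes with all `τ i` commutes with all polynomials in the `τ i` -/
theorem commute_aevalEnd {g : Module.End 𝒪 M} (hg : ∀ i, Commute g (τ i))
    (h : MvPolynomial ι 𝒪) : Commute g (aevalEnd τ hcomm h) := by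
  induction h using MvPolynomial.induction_on with
  | C a =>
    rw [aevalEnd_C]
    exact (Algebra.commutes a g).symm
  | add p q hp hq =>
    rw [map_add]
    exact hp.add_right hq
  | mul_X p i hp =>
    rw [map_mul, aevalEnd_X]
    exact hp.mul_right (hg i)

/-- an additive map commuting with scalars and with all `τ i` commutes with all polynomials in the
`τ i` (elementwise form, for semilinear-free Galois actions given as additive maps) -/
theorem aevalEnd_apply_comm {g : M →+ M} (hgs : ∀ (a : 𝒪) (m : M), g (a • m) = a • g m)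
    (hg : ∀ i m, g (τ i m) = τ i (g m)) (h : MvPolynomial ι 𝒪) (m : M) :
    g (aevalEnd τ hcomm h m) = aevalEnd τ hcomm h (g m) := by
  induction h using MvPolynomial.induction_on generalizing m with
  | C a => rw [aevalEnd_C_apply, aevalEnd_C_apply, hgs]
  | add p q hp hq =>
    rw [map_add, LinearMap.add_apply, LinearMap.add_apply, map_add, hp, hq]
  | mul_X p i hp =>
    rw [map_mul, aevalEnd_X, Module.End.mul_apply, Module.End.mul_apply, hp, hg]

theorem aevalEnd_monomial (α : ι →₀ ℕ) (a : 𝒪) :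
    aevalEnd τ hcomm (monomial α a) = a • aevalEnd τ hcomm (monomial α 1) := by
  rw [← map_smul, MvPolynomial.smul_monomial, smul_eq_mul, mul_one]

theorem aevalEnd_monomial_add (α β : ι →₀ ℕ) :
    aevalEnd τ hcomm (monomial (α + β) 1) =
      aevalEnd τ hcomm (monomial α 1) * aevalEnd τ hcomm (monomial β 1) := by
  rw [← map_mul, MvPolynomial.monomial_mul, one_mul]

theorem aevalEnd_monomial_zero : aevalEnd τ hcomm (monomial 0 1) = 1 := by
  rw [show (monomial (0 : ι →₀ ℕ) (1 : 𝒪)) = 1 from rfl, map_one]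

theorem aevalEnd_monomial_single (i : ι) (n : ℕ) :
    aevalEnd τ hcomm (monomial (Finsupp.single i n) 1) = τ i ^ n := by
  rw [← MvPolynomial.X_pow_eq_monomial, map_pow, aevalEnd_X]

/-- **Support formula.** -/
theorem aevalEnd_eq_sum (h : MvPolynomial ι 𝒪) :
    aevalEnd τ hcomm h =
      ∑ α ∈ h.support, h.coeff α • aevalEnd τ hcomm (monomial α 1) := by
  conv_lhs => rw [h.as_sum, map_sum]
  exact Finset.sum_congr rfl fun α _ => aevalEnd_monomial τ hcomm α _

theorem aevalEnd_apply_eq_sum (h : MvPolynomial ι 𝒪) (m : M) :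
    aevalEnd τ hcomm h m =
      ∑ α ∈ h.support, h.coeff α • aevalEnd τ hcomm (monomial α 1) m := by
  rw [aevalEnd_eq_sum, LinearMap.sum_apply]
  rfl

/-- uniqueness: `aevalEnd` is the only algebra hom sending `X i` to `τ i` -/
theorem aevalEnd_unique (f : MvPolynomial ι 𝒪 →ₐ[𝒪] Module.End 𝒪 M) (hf : ∀ i, f (X i) = τ i) :
    f = aevalEnd τ hcomm :=
  MvPolynomial.algHom_ext fun i => by rw [hf, aevalEnd_X]

end Def

section BaseChange

variable {R : Type*} [CommRing R] [Algebra R 𝒪] {X : Type*} [AddCommGroup X] [Module R X]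

/-- **Base change compatibility.** -/
theorem aevalEnd_baseChange (t : ι → Module.End R X) (htcomm : ∀ i j, Commute (t i) (t j))
    (hτcomm : ∀ i j, Commute ((t i).baseChange 𝒪 : Module.End 𝒪 (𝒪 ⊗[R] X))
      ((t j).baseChange 𝒪))
    (h₀ : MvPolynomial ι R) :
    aevalEnd (fun i => ((t i).baseChange 𝒪 : Module.End 𝒪 (𝒪 ⊗[R] X))) hτcomm
        (MvPolynomial.map (algebraMap R 𝒪) h₀) =
      (aevalEnd t htcomm h₀).baseChange 𝒪 := by
  induction h₀ using MvPolynomial.induction_on with
  | C a =>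
    rw [MvPolynomial.map_C, aevalEnd_C, aevalEnd_C]
    ext x
    simp [Algebra.algebraMap_eq_smul_one, TensorProduct.smul_tmul']
  | add p q hp hq =>
    rw [map_add, map_add, hp, hq, map_add, LinearMap.baseChange_add]
  | mul_X p i hp =>
    rw [map_mul, map_mul, hp, MvPolynomial.map_X, aevalEnd_X, map_mul, aevalEnd_X,
      LinearMap.baseChange_mul]

/-- base changes of commuting endomorphisms commute -/
theorem commute_baseChange {t t' : Module.End R X} (h : Commute t t') :
    Commute (t.baseChange 𝒪 : Module.End 𝒪 (𝒪 ⊗[R] X)) (t'.baseChange 𝒪) := by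
  show _ * _ = _ * _
  rw [← LinearMap.baseChange_mul, ← LinearMap.baseChange_mul, h.eq]

/-- **Base change compatibility over `ℤ`**, in the form used for `𝒪 ⊗[ℤ] J₀(N)[p^m]`. -/
theorem aevalEnd_baseChange_int {X : Type*} [AddCommGroup X] (t : ι → Module.End ℤ X)
    (htcomm : ∀ i j, Commute (t i) (t j)) (h₀ : MvPolynomial ι ℤ) :
    aevalEnd (fun i => ((t i).baseChange 𝒪 : Module.End 𝒪 (𝒪 ⊗[ℤ] X)))
        (fun i j => commute_baseChange (htcomm i j))
        (MvPolynomial.map (Int.castRingHom 𝒪) h₀) =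
      (aevalEnd t htcomm h₀).baseChange 𝒪 := by
  have := aevalEnd_baseChange (𝒪 := 𝒪) t htcomm (fun i j => commute_baseChange (htcomm i j)) h₀
  rwa [show algebraMap ℤ 𝒪 = Int.castRingHom 𝒪 from rfl] at this

end BaseChange

section Quot

variable (τ : ι → Module.End 𝒪 M) (hcomm : ∀ i j, Commute (τ i) (τ j))

/-- the commutative ring of polynomials in the `τ i`, acting faithfully on `M` -/
abbrev EndRing : Type _ := MvPolynomial ι 𝒪 ⧸ RingHom.ker (aevalEnd τ hcomm)

/-- the faithful representation of `EndRing` -/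
noncomputable def aevalEndQuot : EndRing τ hcomm →ₐ[𝒪] Module.End 𝒪 M :=
  Ideal.kerLiftAlg (aevalEnd τ hcomm)

theorem aevalEndQuot_mk (h : MvPolynomial ι 𝒪) :
    aevalEndQuot τ hcomm (Ideal.Quotient.mk _ h) = aevalEnd τ hcomm h := rfl

theorem aevalEndQuot_injective : Function.Injective (aevalEndQuot τ hcomm) :=
  Ideal.kerLiftAlg_injective _

/-- faithfulness: an element of `EndRing` acting as zero on `M` is zero -/
theorem eq_zero_of_forall_apply_eq_zero (r : EndRing τ hcomm)
    (hr : ∀ m : M, aevalEndQuot τ hcomm r m = 0) : r = 0 := by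
  apply aevalEndQuot_injective τ hcomm
  rw [map_zero]
  exact LinearMap.ext hr

/-- `EndRing` is finite when `M` is -/
theorem finite_endRing [Finite M] : Finite (EndRing τ hcomm) := by
  haveI : Finite (Module.End 𝒪 M) := Finite.of_injective (fun f : Module.End 𝒪 M => (f : M → M))
    DFunLike.coe_injective
  exact Finite.of_injective _ (aevalEndQuot_injective τ hcomm)

end Quot

end Fermat.Agent.FF2.S32E
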